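import Fermat.Agent.ProjectiveRegularity.Hyperplane
import Mathlib.Analysis.InnerProductSpace.Trace
import Mathlib.Topology.MetricSpace.Contracting

/-!
# The trace of an operator with a dominant singular value

Such an operator is close to a map of rank one.  If moreover its trace is not small, this map is
not nilpotent, so the contraction principle on an affine chart gives a real eigenvalue, and the
powers of the operator are close to rank one as well.
-/

set_option autoImplicit false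

noncomputable section

namespace FA.TopEigenvalue

open Filter Topology Module Metric
open FA.FurstenbergLyapunov FA.GuivarchRaugi FA.ProjectiveRegularity
open scoped RealInnerProductSpace NNReal

variable {E : Type*} [NormedAddCommGroup E] [InnerProductSpace ℝ E] [FiniteDimensional ℝ E]

/-- Some limit of the normalised powers has rank one. -/
def PowerLine (A : E →L[ℝ] E) : Prop :=
  ∃ (s : ℕ → ℕ) (R : E →L[ℝ] E), StrictMono s ∧
    Tendsto (fun j => ‖A ^ s j‖⁻¹ • A ^ s j) atTop (𝓝 R) ∧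
    finrank ℝ (LinearMap.range (R : E →ₗ[ℝ] E)) = 1

/-- The trace and a real eigenvalue are at least `θ` times the norm. -/
def Pinched (A : E →L[ℝ] E) (θ : ℝ) : Prop :=
  θ * ‖A‖ ≤ |LinearMap.trace ℝ E (A : E →ₗ[ℝ] E)| ∧
    ∃ (a : ℝ) (w : E), w ≠ 0 ∧ A w = a • w ∧ θ * ‖A‖ ≤ |a| ∧ PowerLine A

/-- The spectral radius by the formula of Gelfand. -/
def radius (A : E →L[ℝ] E) : ℝ := ⨅ j : ℕ, ‖A ^ (j + 1)‖ ^ (1 / ((j : ℝ) + 1))

/-- The trace is at most the dimension times the norm. -/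
theorem abs_trace_le (A : E →L[ℝ] E) :
    |LinearMap.trace ℝ E (A : E →ₗ[ℝ] E)| ≤ finrank ℝ E * ‖A‖ := by
  set b := stdOrthonormalBasis ℝ E
  rw [LinearMap.trace_eq_sum_inner (A : E →ₗ[ℝ] E) b]
  refine (Finset.abs_sum_le_sum_abs _ _).trans
    ((Finset.sum_le_sum (g := fun _ => ‖A‖) fun i _ => ?_).trans_eq (by simp))
  refine (abs_real_inner_le_norm _ _).trans ?_
  rw [b.orthonormal.1 i, one_mul]
  exact (A.le_opNorm (b i)).trans_eq (by rw [b.orthonormal.1 i, mul_one])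

theorem continuous_trace : Continuous fun A : E →L[ℝ] E =>
    LinearMap.trace ℝ E (A : E →ₗ[ℝ] E) := by
  simp only [LinearMap.trace_eq_sum_inner _ (stdOrthonormalBasis ℝ E)]
  exact continuous_finsetSum _ fun i _ =>
    continuous_const.inner (ContinuousLinearMap.apply ℝ E (stdOrthonormalBasis ℝ E i)).continuous

/-- **The trace of a product through the first singular vector.** -/
theorem abs_trace_mul_sub_le (hd : 1 < finrank ℝ E) (A B : E →L[ℝ] E) {v : E}
    (hv : v = FA.Oseledets.svBasis (A : E →ₗ[ℝ] E) ⟨0, by omega⟩) :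
    |LinearMap.trace ℝ E ((B * A : E →L[ℝ] E) : E →ₗ[ℝ] E) - ⟪v, B (A v)⟫| ≤
      finrank ℝ E * ((A : E →ₗ[ℝ] E).singularValues 1 * ‖B‖) := by
  set b := FA.Oseledets.svBasis (A : E →ₗ[ℝ] E)
  set σ := (A : E →ₗ[ℝ] E).singularValues 1
  have hσ : 0 ≤ σ := LinearMap.singularValues_nonneg _ _
  rw [LinearMap.trace_eq_sum_inner _ b,
    ← Finset.add_sum_erase _ _ (Finset.mem_univ (⟨0, by omega⟩ : Fin (finrank ℝ E))), hv]
  show |⟪b _, B (A (b _))⟫ + _ - ⟪b _, B (A (b _))⟫| ≤ _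
  rw [add_sub_cancel_left]
  refine (Finset.abs_sum_le_sum_abs _ _).trans
    ((Finset.sum_le_sum (g := fun _ => σ * ‖B‖) fun i hi => ?_).trans ?_)
  · have h0 : 1 ≤ (i : ℕ) := by
      rcases Nat.eq_zero_or_pos i.val with h | h
      · exact absurd (Fin.ext h) (Finset.ne_of_mem_erase hi)
      · exact h
    show |⟪b i, B (A (b i))⟫| ≤ σ * ‖B‖
    refine (abs_real_inner_le_norm _ _).trans ?_
    rw [b.orthonormal.1 i, one_mul, mul_comm σ]
    refine (B.le_opNorm _).trans (mul_le_mul_of_nonneg_left ?_ (norm_nonneg _))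
    rw [← ContinuousLinearMap.coe_coe, FA.Oseledets.norm_map_svBasis]
    exact (A : E →ₗ[ℝ] E).singularValues_antitone h0
  · rw [Finset.sum_const, nsmul_eq_mul]
    refine mul_le_mul_of_nonneg_right (Nat.cast_le.2 ?_) (mul_nonneg hσ (norm_nonneg _))
    exact (Finset.card_le_univ _).trans_eq (Fintype.card_fin _)

/-- **An eigenvector by the contraction principle.** -/
theorem exists_eigenvector (hd : 1 < finrank ℝ E) (A : E →L[ℝ] E) {v : E}
    (hv : v = FA.Oseledets.svBasis (A : E →ₗ[ℝ] E) ⟨0, by omega⟩) (hq : 0 < |⟪v, A v⟫|)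
    (hσ : 20 * (A : E →ₗ[ℝ] E).singularValues 1 * ‖A‖ ≤ ⟪v, A v⟫ ^ 2) :
    ∃ (a : ℝ) (w : E), w ≠ 0 ∧ A w = a • w ∧ |⟪v, A v⟫| / 2 ≤ |a| := by
  set σ := (A : E →ₗ[ℝ] E).singularValues 1
  set g := A v
  set q := |⟪v, g⟫| with hqdef
  set κ := ‖A‖
  have hσ0 : 0 ≤ σ := LinearMap.singularValues_nonneg _ _
  have hv1 : ‖v‖ = 1 := hv ▸ (FA.Oseledets.svBasis (A : E →ₗ[ℝ] E)).orthonormal.1 _
  have hgκ : ‖g‖ ≤ κ := (A.le_opNorm v).trans_eq (by rw [hv1, mul_one])
  have hqκ : q ≤ κ := (abs_real_inner_le_norm v g).trans (by rw [hv1, one_mul]; exact hgκ)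
  have hq2 : 20 * σ * κ ≤ q ^ 2 := by rwa [hqdef, sq_abs]
  -- off `v` the map is small
  set L : E → E := fun w => A (w - ⟪v, w⟫ • v) with hLdef
  have hL : ∀ w, ‖L w‖ ≤ σ * ‖w‖ := by
    intro w
    have hperp : ⟪v, w - ⟪v, w⟫ • v⟫ = 0 := by
      rw [inner_sub_right, real_inner_smul_right, real_inner_self_eq_norm_sq, hv1]
      ring
    refine (norm_map_le_of_orthogonal hd A (by rwa [← hv])).trans
      (mul_le_mul_of_nonneg_left ?_ hσ0)
    refine (sq_le_sq₀ (norm_nonneg _) (norm_nonneg _)).1 ?_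
    rw [norm_sub_sq_real, real_inner_smul_right, norm_smul, hv1, mul_one, Real.norm_eq_abs,
      sq_abs, real_inner_comm v w]
    nlinarith [sq_nonneg ⟪v, w⟫]
  have hsplit : ∀ w, A w = ⟪v, w⟫ • g + L w := fun w => by
    simp only [hLdef, g, map_sub, map_smul, add_sub_cancel]
  have hLsub : ∀ w w', L (w - w') = L w - L w' := fun w w' => by
    simp only [hLdef, inner_sub_right, sub_smul, ← map_sub]
    congr 1
    abel
  -- the chart `z ↦ g + z`
  set s := Metric.closedBall (0 : E) (q / 2) with hs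
  set F : E → E := fun z => (⟪v, g + z⟫)⁻¹ • L (g + z) with hF
  have ha : ∀ z ∈ s, q / 2 ≤ |⟪v, g + z⟫| ∧ ‖g + z‖ ≤ 2 * κ := by
    intro z hz
    rw [hs, mem_closedBall_zero_iff] at hz
    have h1 := abs_sub_abs_le_abs_sub ⟪v, g⟫ (-⟪v, z⟫)
    rw [abs_neg, sub_neg_eq_add, ← inner_add_right] at h1
    have h2 : |⟪v, z⟫| ≤ q / 2 := (abs_real_inner_le_norm v z).trans (by rwa [hv1, one_mul])
    have h3 := norm_add_le g z
    exact ⟨by linarith, by linarith⟩
  have hmaps : Set.MapsTo F s s := by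
    intro z hz
    obtain ⟨h1, h2⟩ := ha z hz
    rw [hs, mem_closedBall_zero_iff, hF, norm_smul, norm_inv, Real.norm_eq_abs,
      inv_mul_le_iff₀ (lt_of_lt_of_le (half_pos hq) h1)]
    refine ((hL _).trans (mul_le_mul_of_nonneg_left h2 hσ0)).trans ?_
    refine le_trans ?_ (mul_le_mul_of_nonneg_right h1 (half_pos hq).le)
    nlinarith
  have hlip : ∀ z ∈ s, ∀ z' ∈ s, dist (F z) (F z') ≤ 1 / 2 * dist z z' := by
    intro z hz z' hz'
    obtain ⟨h1, h2⟩ := ha z hz
    obtain ⟨h1', h2'⟩ := ha z' hz'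
    set a := ⟪v, g + z⟫
    set a' := ⟪v, g + z'⟫
    have ha0 : 0 < |a| := lt_of_lt_of_le (half_pos hq) h1
    have ha0' : 0 < |a'| := lt_of_lt_of_le (half_pos hq) h1'
    have e : F z - F z' = a⁻¹ • L (z - z') + ((a' - a) * (a * a')⁻¹) • L (g + z') := by
      rw [show z - z' = (g + z) - (g + z') by abel, hLsub, hF,
        show (a' - a) * (a * a')⁻¹ = a⁻¹ - a'⁻¹ by
          field_simp [abs_pos.1 ha0, abs_pos.1 ha0'], sub_smul, smul_sub]
      abel
    have hda : |a' - a| ≤ ‖z - z'‖ := by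
      rw [← inner_sub_right, norm_sub_rev, show g + z' - (g + z) = z' - z by abel]
      exact (abs_real_inner_le_norm _ _).trans_eq (by rw [hv1, one_mul])
    rw [dist_eq_norm, dist_eq_norm, e]
    have i1 : ‖a⁻¹ • L (z - z')‖ ≤ (q / 2)⁻¹ * (σ * ‖z - z'‖) := by
      rw [norm_smul, norm_inv, Real.norm_eq_abs]
      exact mul_le_mul (inv_anti₀ (half_pos hq) h1) (hL _) (norm_nonneg _) (by positivity)
    have i2 : ‖((a' - a) * (a * a')⁻¹) • L (g + z')‖ ≤
        ‖z - z'‖ * (q / 2 * (q / 2))⁻¹ * (σ * (2 * κ)) := by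
      rw [norm_smul, norm_mul, norm_inv, norm_mul, Real.norm_eq_abs, Real.norm_eq_abs,
        Real.norm_eq_abs]
      refine mul_le_mul (mul_le_mul hda (inv_anti₀ (by positivity)
        (mul_le_mul h1 h1' (half_pos hq).le ha0.le)) (by positivity) (norm_nonneg _))
        ((hL _).trans (mul_le_mul_of_nonneg_left h2' hσ0)) (norm_nonneg _) (by positivity)
    refine (norm_add_le _ _).trans ((add_le_add i1 i2).trans ?_)
    have e2 : (q / 2)⁻¹ * (σ * ‖z - z'‖) + ‖z - z'‖ * (q / 2 * (q / 2))⁻¹ * (σ * (2 * κ)) =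
        ‖z - z'‖ * ((2 * (σ * q) + 8 * (σ * κ)) / q ^ 2) := by
      field_simp
      ring
    have e3 : (2 * (σ * q) + 8 * (σ * κ)) / q ^ 2 ≤ 1 / 2 := by
      rw [div_le_iff₀ (by positivity)]
      nlinarith
    rw [e2, mul_comm (1 / 2 : ℝ)]
    exact mul_le_mul_of_nonneg_left e3 (norm_nonneg _)
  have hK : ContractingWith (1 / 2 : ℝ≥0) (hmaps.restrict F s s) := by
    refine ⟨by norm_num, LipschitzWith.of_dist_le_mul fun z z' => ?_⟩
    rw [Subtype.dist_eq, Subtype.dist_eq]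
    push_cast
    exact hlip z z.2 z' z'.2
  obtain ⟨z, hz, hfix, -⟩ := hK.exists_fixedPoint' isClosed_closedBall.isComplete hmaps
    (x := 0) (by simp [hs]; linarith) (edist_ne_top _ _)
  obtain ⟨h1, -⟩ := ha z hz
  have ha0 : ⟪v, g + z⟫ ≠ 0 := abs_pos.1 (lt_of_lt_of_le (half_pos hq) h1)
  refine ⟨⟪v, g + z⟫, g + z, fun h => ha0 (by rw [h, inner_zero_right]), ?_, h1⟩
  rw [hsplit, smul_add]
  congr 1
  calc L (g + z) = ⟪v, g + z⟫ • F z := by rw [hF, smul_inv_smul₀ ha0]
    _ = _ := by rw [hfix]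

variable [MeasurableSpace E] [BorelSpace E] [Nontrivial E]

omit [FiniteDimensional ℝ E] [MeasurableSpace E] [BorelSpace E] [Nontrivial E] in
theorem norm_pow_ge {A : E →L[ℝ] E} {a : ℝ} {w : E} (hw : w ≠ 0) (h : A w = a • w) (j : ℕ) :
    |a| ^ j ≤ ‖A ^ j‖ := by
  have e : (A ^ j) w = a ^ j • w := by
    induction j with
    | zero => simp
    | succ j ih => rw [pow_succ, mul_apply_eq_comp, h, map_smul, ih,
        smul_smul, pow_succ']
  have := (A ^ j).le_opNorm w
  rw [e, norm_smul, Real.norm_eq_abs, abs_pow] at this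
  exact le_of_mul_le_mul_right this (norm_pos_iff.2 hw)

/-- **Powers tend to rank one.** -/
theorem powerLine_of_eigenvector (hd : 2 ≤ finrank ℝ E) {A : E →L[ℝ] E} (hA : A ∈ unitDet E)
    {a : ℝ} {w : E} (hw : w ≠ 0) (h : A w = a • w) (ha : a ≠ 0)
    (hgap : logPair A < 2 * Real.log |a|) : PowerLine A := by
  have hpow : ∀ j, A ^ j ∈ unitDet E := fun j => by
    induction j with
    | zero => rw [pow_zero]; exact one_mem_unitDet
    | succ j ih => rw [pow_succ]; exact mul_mem_unitDet ih hA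
  have hsub : ∀ j : ℕ, logPair (A ^ (j + 1)) ≤ ((j : ℝ) + 1) * logPair A := by
    intro j
    induction j with
    | zero => simp
    | succ j ih =>
      rw [pow_succ]
      refine (logPair_mul_le hd hA (hpow (j + 1))).trans ?_
      push_cast
      linarith
  set R : ℕ → E →L[ℝ] E := fun j => ‖A ^ (j + 1)‖⁻¹ • A ^ (j + 1)
  have hne : ∀ j, 0 < ‖A ^ (j + 1)‖ := fun j => one_pos.trans_le (one_le_norm (hpow _))
  have hR : ∀ j, R j ∈ sphere (0 : E →L[ℝ] E) 1 := fun j =>
    mem_sphere_zero_iff_norm.2 (norm_smul_inv_norm (norm_pos_iff.1 (hne j)))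
  obtain ⟨H, hH, t, ht, hlim⟩ := (isCompact_sphere (0 : E →L[ℝ] E) 1).tendsto_subseq hR
  refine ⟨fun j => t j + 1, H, fun i j hij => Nat.add_lt_add_right (ht hij) 1, hlim, ?_⟩
  have hH1 : ‖H‖ = 1 := mem_sphere_zero_iff_norm.1 hH
  -- the second singular value dies out
  have hσ : (H : E →ₗ[ℝ] E).singularValues 1 = 0 := by
    have h1 : Tendsto (fun j => (R (t j) : E →ₗ[ℝ] E).singularValues 1) atTop
        (𝓝 ((H : E →ₗ[ℝ] E).singularValues 1)) :=
      ((FA.Oseledets.continuous_singularValue 1).tendsto H).comp hlim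
    have h2 : Tendsto (fun j => (R j : E →ₗ[ℝ] E).singularValues 1) atTop (𝓝 0) := by
      refine squeeze_zero (fun j => LinearMap.singularValues_nonneg _ _)
        (g := fun j : ℕ => Real.exp (logPair A - 2 * Real.log |a|) ^ (j + 1)) (fun j => ?_)
        ((tendsto_pow_atTop_nhds_zero_of_lt_one (Real.exp_pos _).le
          (Real.exp_lt_one_iff.2 (by linarith))).comp (tendsto_add_atTop_nat 1))
      have hs := singularValue_one_pos hd (hpow (j + 1))
      rw [singularValue_smul (inv_pos.2 (hne j)), inv_mul_eq_div,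
        ← Real.exp_log (div_pos hs (hne j)),
        ← Real.exp_nat_mul, Real.log_div hs.ne' (hne j).ne']
      refine Real.exp_le_exp.2 ?_
      have e := (logPair_bounds hd (hpow (j + 1))).2.2
      have e1 := hsub j
      have e2 := Real.log_le_log (by positivity) (norm_pow_ge hw h (j + 1))
      rw [Real.log_pow] at e2
      rw [Nat.cast_add, Nat.cast_one] at e2 ⊢
      linarith
    exact tendsto_nhds_unique h1 (h2.comp ht.tendsto_atTop)
  refine le_antisymm ((LinearMap.singularValues_eq_zero_iff_le_finrank_range _).1 hσ) ?_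
  rw [Nat.one_le_iff_ne_zero]
  intro h0
  rw [Submodule.finrank_eq_zero, LinearMap.range_eq_bot] at h0
  rw [ContinuousLinearMap.coe_injective (h0.trans ContinuousLinearMap.toLinearMap_zero.symm),
    norm_zero] at hH1
  exact zero_ne_one hH1

/-- **A trace that is not small gives a dominant eigenvalue.** -/
theorem pinched_of_trace (hd : 2 ≤ finrank ℝ E) {A : E →L[ℝ] E} (hA : A ∈ unitDet E) {θ : ℝ}
    (hθ : 0 < θ) (hθ1 : θ ≤ 1) (htr : θ * ‖A‖ ≤ |LinearMap.trace ℝ E (A : E →ₗ[ℝ] E)|)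
    (hσ : 100 * finrank ℝ E * (A : E →ₗ[ℝ] E).singularValues 1 ≤ θ ^ 2 * ‖A‖) :
    Pinched A (θ / 4) := by
  set σ := (A : E →ₗ[ℝ] E).singularValues 1
  set κ := ‖A‖
  set d : ℝ := ((finrank ℝ E : ℕ) : ℝ) with hdd
  have hd2 : 2 ≤ d := by
    rw [hdd]
    exact_mod_cast hd
  have hκ : 0 < κ := one_pos.trans_le (one_le_norm hA)
  have hσ0 : 0 < σ := singularValue_one_pos hd hA
  refine ⟨le_trans (mul_le_mul_of_nonneg_right (by linarith) hκ.le) htr, ?_⟩
  set v := FA.Oseledets.svBasis (A : E →ₗ[ℝ] E) ⟨0, by omega⟩ with hv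
  have h1 : |LinearMap.trace ℝ E (A : E →ₗ[ℝ] E) - ⟪v, A v⟫| ≤ d * σ := by
    simpa [ContinuousLinearMap.norm_id] using abs_trace_mul_sub_le (by omega) A 1 hv
  have hθ2 : θ ^ 2 * κ ≤ θ * κ := mul_le_mul_of_nonneg_right (by nlinarith) hκ.le
  have hdσ : σ ≤ d * σ := le_mul_of_one_le_left hσ0.le (by linarith)
  have hq : θ * κ / 2 ≤ |⟪v, A v⟫| := by
    have := abs_sub_abs_le_abs_sub (LinearMap.trace ℝ E (A : E →ₗ[ℝ] E)) ⟪v, A v⟫
    nlinarith
  have hq0 : 0 < |⟪v, A v⟫| := lt_of_lt_of_le (by positivity) hq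
  obtain ⟨a, w, hw, haw, ha⟩ := exists_eigenvector (by omega) A hv hq0 (by
    have h2 := pow_le_pow_left₀ (by positivity) hq 2
    rw [sq_abs] at h2
    nlinarith)
  have ha' : θ / 4 * κ ≤ |a| := by linarith
  have ha0 : 0 < |a| := lt_of_lt_of_le (by positivity) ha'
  refine ⟨a, w, hw, haw, ha', powerLine_of_eigenvector hd hA hw haw (abs_pos.1 ha0) ?_⟩
  rw [(logPair_bounds hd hA).2.2, ← Real.log_mul hκ.ne' hσ0.ne', two_mul,
    ← Real.log_mul ha0.ne' ha0.ne']
  refine Real.log_lt_log (mul_pos hκ hσ0) (lt_of_lt_of_le ?_ (mul_le_mul ha' ha'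
    (by positivity) ha0.le))
  nlinarith

omit [FiniteDimensional ℝ E] [MeasurableSpace E] [BorelSpace E] [Nontrivial E] in
theorem radius_le_norm (A : E →L[ℝ] E) : radius A ≤ ‖A‖ :=
  (ciInf_le ⟨0, Set.forall_mem_range.2 fun j => by positivity⟩ 0).trans_eq (by simp)

omit [FiniteDimensional ℝ E] [MeasurableSpace E] [BorelSpace E] [Nontrivial E] in
theorem abs_le_radius {A : E →L[ℝ] E} {a : ℝ} {w : E} (hw : w ≠ 0) (h : A w = a • w) :
    |a| ≤ radius A := by
  refine le_ciInf fun j => ?_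
  have := Real.rpow_le_rpow (by positivity) (norm_pow_ge hw h (j + 1))
    (show (0 : ℝ) ≤ 1 / ((j : ℝ) + 1) by positivity)
  rwa [← Real.rpow_natCast, ← Real.rpow_mul (abs_nonneg a), Nat.cast_add, Nat.cast_one,
    mul_one_div_cancel (by positivity), Real.rpow_one] at this

omit [FiniteDimensional ℝ E] [MeasurableSpace E] [BorelSpace E] [Nontrivial E] in
theorem measurable_radius : Measurable (radius (E := E)) :=
  Measurable.iInf fun j => ((continuous_pow (j + 1)).norm.rpow_const fun _ =>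
    Or.inr (by positivity)).measurable

omit [MeasurableSpace E] [BorelSpace E] [Nontrivial E] in
/-- **The logarithms of a pinched operator.** -/
theorem Pinched.abs_log_sub_le {A : E →L[ℝ] E} {θ : ℝ} (h : Pinched A θ) (hA : 0 < ‖A‖)
    (hθ : 0 < θ) :
    LinearMap.trace ℝ E (A : E →ₗ[ℝ] E) ≠ 0 ∧
      |Real.log |LinearMap.trace ℝ E (A : E →ₗ[ℝ] E)| - Real.log ‖A‖| ≤
        |Real.log θ| + Real.log (finrank ℝ E) ∧
      |Real.log (radius A) - Real.log ‖A‖| ≤ |Real.log θ| + Real.log (finrank ℝ E) := by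
  obtain ⟨htr, a, w, hw, haw, ha, -⟩ := h
  have hθA : 0 < θ * ‖A‖ := mul_pos hθ hA
  have key : ∀ t : ℝ, θ * ‖A‖ ≤ t → t ≤ finrank ℝ E * ‖A‖ →
      |Real.log t - Real.log ‖A‖| ≤ |Real.log θ| + Real.log (finrank ℝ E) := by
    intro t h1 h2
    have hd0 : (0 : ℝ) < finrank ℝ E := pos_of_mul_pos_left
      (lt_of_lt_of_le hθA (h1.trans h2)) hA.le
    have e1 := Real.log_le_log hθA h1
    have e2 := Real.log_le_log (lt_of_lt_of_le hθA h1) h2
    rw [Real.log_mul hθ.ne' hA.ne'] at e1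
    rw [Real.log_mul hd0.ne' hA.ne'] at e2
    have e3 : 0 ≤ Real.log (finrank ℝ E) := Real.log_natCast_nonneg _
    rw [abs_le]
    constructor <;> linarith [neg_abs_le (Real.log θ), abs_nonneg (Real.log θ)]
  refine ⟨abs_pos.1 (lt_of_lt_of_le hθA htr), key _ htr (abs_trace_le A),
    key _ (ha.trans (abs_le_radius hw haw)) ((radius_le_norm A).trans ?_)⟩
  have hd1 : (1 : ℝ) ≤ finrank ℝ E := by
    have : Nontrivial E := nontrivial_of_ne w 0 hw
    exact_mod_cast finrank_pos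
  exact le_mul_of_one_le_left hA.le hd1

end FA.TopEigenvalue
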