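import Fermat.Agent.MatrixCoefficient.Basic
import Fermat.Agent.TopEigenvalue.Operator

/-!
# The trace of a random product

Write the product of `k + j + k` factors as `B * A` with `B` the product of the last `k` ones.  The
trace is `⟪v, B (A v)⟫` up to the second singular value of `A`, where `v` is the first singular
vector of `A`, and `B` is independent of `A`; so the bound for the coefficients of `B` makes the
trace comparable to the norm up to a factor exponential in `k`.
-/

set_option autoImplicit false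

noncomputable section

namespace FA.TopEigenvalue

open MeasureTheory Filter Topology Module Set
open FA.FurstenbergLyapunov FA.FurstenbergKifer FA.GuivarchRaugi FA.LePage
open FA.ProjectiveRegularity FA.MatrixCoefficient
open scoped ENNReal RealInnerProductSpace

variable {E : Type*} [NormedAddCommGroup E] [InnerProductSpace ℝ E] [FiniteDimensional ℝ E]
  [MeasurableSpace E] [BorelSpace E] [Nontrivial E]

omit [MeasurableSpace E] [BorelSpace E] [Nontrivial E] [FiniteDimensional ℝ E] in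
theorem Pinched.mono {A : E →L[ℝ] E} {θ θ' : ℝ} (h : Pinched A θ) (hθ : θ' ≤ θ) :
    Pinched A θ' := by
  obtain ⟨htr, a, w, hw, haw, ha, hp⟩ := h
  have := mul_le_mul_of_nonneg_right hθ (norm_nonneg A)
  exact ⟨this.trans htr, a, w, hw, haw, this.trans ha, hp⟩

variable {μ : Measure (E →L[ℝ] E)} [IsProbabilityMeasure μ] {ε γ l η : ℝ}

/-- **The trace is comparable to the norm up to the last factors.** -/
theorem decays_pinched_block (hd : 2 ≤ finrank ℝ E) (hμ : ∀ᵐ A ∂μ, A ∈ unitDet E)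
    (hsi : StronglyIrreducible μ.support) (hprox : Proximal μ.support) (hε : 0 < ε)
    (hexp : ExpMoment μ ε)
    (hγ : ∀ᵐ x ∂(Measure.infinitePi fun _ : ℕ => μ),
      Tendsto (fun n : ℕ => Real.log ‖randProd n x‖ / n) atTop (𝓝 γ))
    (hl : ∀ᵐ x ∂(Measure.infinitePi fun _ : ℕ => μ),
      Tendsto (fun n : ℕ => Real.log ((randProd n x : E →ₗ[ℝ] E).singularValues 1) / n) atTop
        (𝓝 l)) (hη : 0 < η) (hηl : 4 * η ≤ γ - l) :
    Decays fun (j : ℕ) k => (Measure.infinitePi fun _ : ℕ => μ)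
      {x | ¬ Pinched (randProd (k + j + k) x) (Real.exp (-(η * k)) / 4)} := by
  set π := Measure.infinitePi fun _ : ℕ => μ with hπ
  have hδ : 0 < η / 4 := by positivity
  obtain ⟨C₁, r₁, hC₁, hr₁, hr₁1, hgap⟩ := decays_gap hd hμ hsi hε hexp hγ hl hη
  set p₁ : ℕ → ℕ → ℝ≥0∞ := fun _ k => ENNReal.ofReal (C₁ * r₁ ^ k)
  have hp₁ : Decays p₁ := ⟨C₁, r₁, hC₁, hr₁, hr₁1, fun _ _ => le_rfl⟩
  obtain ⟨C₂, r₂, hC₂, hr₂, hr₂1, hlast⟩ :=
    ((decays_norm hd hμ hsi hprox hε hexp hγ hδ).comp fun _ : Sph E × Sph E => ()).add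
      (decays_coefficient hd hμ hsi hprox hε hexp hγ hδ)
  set p₂ : ℕ → ℕ → ℝ≥0∞ := fun _ k => ENNReal.ofReal (C₂ * r₂ ^ k)
  have hp₂ : Decays p₂ := ⟨C₂, r₂, hC₂, hr₂, hr₂1, fun _ _ => le_rfl⟩
  refine Decays.of_eventually ((hp₁.add hp₁).add hp₂) (fun _ _ => prob_le_one) ?_
  set d : ℝ := ((finrank ℝ E : ℕ) : ℝ) with hdd
  have hd1 : 1 ≤ d := by
    rw [hdd]
    exact_mod_cast (le_trans one_le_two hd)
  filter_upwards [(Real.tendsto_exp_atTop.comp (tendsto_natCast_atTop_atTop.const_mul_atTop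
    (half_pos hη))).eventually_ge_atTop (100 * d + 2), eventually_gt_atTop 0] with k hk hk0 j
  set G := {A : E →L[ℝ] E | A ∈ unitDet E ∧
    (A : E →ₗ[ℝ] E).singularValues 1 ≤ Real.exp (-(3 * η * k)) * ‖A‖}
  have hG : MeasurableSet G := isClosed_unitDet.measurableSet.inter
    (isClosed_le (FA.Oseledets.continuous_singularValue 1)
      (continuous_const.mul continuous_norm)).measurableSet
  set T := {p : (E →L[ℝ] E) × (ℕ → E →L[ℝ] E) | p.1 ∈ G ∧
    |LinearMap.trace ℝ E ((randProd k p.2 * p.1 : E →L[ℝ] E) : E →ₗ[ℝ] E)| ≤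
      Real.exp (-(η * k)) * ‖randProd k p.2 * p.1‖}
  have hBA : Measurable fun p : (E →L[ℝ] E) × (ℕ → E →L[ℝ] E) => randProd k p.2 * p.1 :=
    continuous_mul.measurable.comp
      (((measurable_randProd k).comp measurable_snd).prodMk measurable_fst)
  have hT : MeasurableSet T := (measurable_fst hG).inter (hBA (isClosed_le
    (continuous_trace.abs) (continuous_const.mul continuous_norm)).measurableSet)
  have hgap' : ∀ m : ℕ, k ≤ m → π {x | randProd m x ∉ G} ≤ p₁ j k := by
    intro m hm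
    refine (measure_mono_ae ?_).trans ((hgap () m).trans (ENNReal.ofReal_le_ofReal
      (mul_le_mul_of_nonneg_left (pow_le_pow_of_le_one hr₁.le hr₁1.le hm) hC₁)))
    filter_upwards [ae_all_unitDet μ hμ] with x hx (hev : randProd m x ∉ G)
    have hQ := randProd_mem_unitDet hx m
    set A := randProd m x
    show -((γ - l - η) * m) ≤ Real.log ((A : E →ₗ[ℝ] E).singularValues 1) - Real.log ‖A‖
    have hσ := singularValue_one_pos hd hQ
    have hκ : 0 < ‖A‖ := one_pos.trans_le (one_le_norm hQ)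
    have h1 := Real.log_le_log (mul_pos (Real.exp_pos _) hκ) (not_le.1 fun h => hev ⟨hQ, h⟩).le
    rw [Real.log_mul (Real.exp_pos _).ne' hκ.ne', Real.log_exp] at h1
    have := mul_le_mul (show 3 * η ≤ γ - l - η by linarith) (Nat.cast_le (α := ℝ).2 hm)
      (Nat.cast_nonneg k) (by linarith)
    linarith
  have hslice : ∀ A : E →L[ℝ] E, π (Prod.mk A ⁻¹' T) ≤ p₂ j k := by
    intro A
    by_cases hAG : A ∈ G
    swap
    · exact (measure_mono_null (fun y (hy : (A, y) ∈ T) => absurd hy.1 hAG) measure_empty).trans_le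
        zero_le
    obtain ⟨hA, hσA⟩ := hAG
    set v := FA.Oseledets.svBasis (A : E →ₗ[ℝ] E) ⟨0, by omega⟩ with hv
    have hv1 : ‖v‖ = 1 := (FA.Oseledets.svBasis (A : E →ₗ[ℝ] E)).orthonormal.1 _
    have hκ : 0 < ‖A‖ := one_pos.trans_le (one_le_norm hA)
    have hgn : ‖A v‖ = ‖A‖ := by
      rw [norm_eq_singularValue_zero, ← ContinuousLinearMap.coe_coe, hv,
        FA.Oseledets.norm_map_svBasis]
    have hg : A v ≠ 0 := norm_pos_iff.1 (hgn ▸ hκ)
    refine (measure_mono ?_).trans ((measure_union_le _ _).trans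
      (hlast (⟨v, mem_sphere_zero_iff_norm.2 hv1⟩, dir (A v)) k))
    intro y hy
    have htr : |LinearMap.trace ℝ E ((randProd k y * A : E →L[ℝ] E) : E →ₗ[ℝ] E)| ≤
      Real.exp (-(η * k)) * ‖randProd k y * A‖ := hy.2
    by_contra hcon
    obtain ⟨h1, h2⟩ := not_or.1 hcon
    set B := randProd k y
    replace h1 : Real.log ‖B‖ < k * (γ + η / 4) := not_le.1 h1
    replace h2 : ¬ (⟪v, B (dir (A v) : E)⟫ = 0 ∨
      (k : ℝ) * (η / 4) ≤ |Real.log |⟪v, B (dir (A v) : E)⟫| - k * γ|) := h2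
    obtain ⟨hne, hlo⟩ := not_or.1 h2
    obtain ⟨hlo', -⟩ := abs_lt.1 (not_le.1 hlo)
    set U := Real.exp (k * (γ + η / 4))
    have hU : 0 < U := Real.exp_pos _
    have hB : ‖B‖ ≤ U := by
      refine (Real.le_exp_log _).trans (Real.exp_le_exp.2 h1.le)
    have hc : Real.exp (-(η / 2 * k)) * U ≤ |⟪v, B (dir (A v) : E)⟫| := by
      rw [← Real.exp_add]
      exact (Real.le_log_iff_exp_le (abs_pos.2 hne)).1 (by linarith)
    have hinner : |⟪v, B (A v)⟫| = ‖A‖ * |⟪v, B (dir (A v) : E)⟫| := by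
      rw [coe_dir hg, map_smul, real_inner_smul_right, abs_mul, abs_inv, abs_norm, hgn,
        mul_inv_cancel_left₀ hκ.ne']
    have hmain := abs_trace_mul_sub_le (by omega) A B hv
    have h3 := abs_sub_abs_le_abs_sub ⟪v, B (A v)⟫
      (LinearMap.trace ℝ E ((B * A : E →L[ℝ] E) : E →ₗ[ℝ] E))
    rw [abs_sub_comm ⟪v, B (A v)⟫, hinner] at h3
    have h4 : ‖B * A‖ ≤ U * ‖A‖ :=
      (norm_mul_le _ _).trans (mul_le_mul_of_nonneg_right hB hκ.le)
    have h5 : (A : E →ₗ[ℝ] E).singularValues 1 * ‖B‖ ≤ Real.exp (-(3 * η * k)) * ‖A‖ * U :=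
      mul_le_mul hσA hB (norm_nonneg _) (mul_nonneg (Real.exp_pos _).le hκ.le)
    rw [← hdd] at hmain
    have h6 : Real.exp (-(η / 2 * k)) ≤ Real.exp (-(η * k)) + d * Real.exp (-(3 * η * k)) := by
      refine le_of_mul_le_mul_right ?_ (mul_pos hκ hU)
      nlinarith [mul_le_mul_of_nonneg_left hc hκ.le, mul_le_mul_of_nonneg_left h4
        (Real.exp_pos (-(η * k))).le, mul_le_mul_of_nonneg_left h5 (zero_le_one.trans hd1)]
    have e1 : Real.exp (-(η * k)) = Real.exp (-(η / 2 * k)) * Real.exp (-(η / 2 * k)) := by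
      rw [← Real.exp_add]
      ring_nf
    have e2 : Real.exp (-(3 * η * k)) ≤ Real.exp (-(η * k)) := Real.exp_le_exp.2 (by nlinarith)
    have e3 : Real.exp (η / 2 * k) * Real.exp (-(η / 2 * k)) = 1 := by
      rw [← Real.exp_add, add_neg_cancel, Real.exp_zero]
    have hk' : 100 * d + 2 ≤ Real.exp (η / 2 * k) := hk
    nlinarith [Real.exp_pos (-(η / 2 * k)), mul_le_mul_of_nonneg_left e2 (zero_le_one.trans hd1),
      mul_le_mul_of_nonneg_right hk' (Real.exp_pos (-(η / 2 * k))).le]
  set m := k + j with hm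
  calc π {x | ¬ Pinched (randProd (k + j + k) x) (Real.exp (-(η * k)) / 4)}
      ≤ π ({x | randProd m x ∉ G} ∪ {x | randProd (m + k) x ∉ G} ∪
          (fun x => (randProd m x, shift^[m] x)) ⁻¹' T) := by
        refine measure_mono_ae ?_
        filter_upwards [ae_all_unitDet μ hμ] with x hx
          (hev : ¬ Pinched (randProd (m + k) x) (Real.exp (-(η * k)) / 4))
        by_contra hcon
        obtain ⟨h12, h3⟩ := not_or.1 hcon
        obtain ⟨h1, h2⟩ := not_or.1 h12
        obtain ⟨hQ, hσQ⟩ : randProd (m + k) x ∈ G := not_not.1 h2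
        have htr : ¬ (randProd m x ∈ G ∧
            |LinearMap.trace ℝ E ((randProd k (shift^[m] x) * randProd m x : E →L[ℝ] E) :
              E →ₗ[ℝ] E)| ≤ Real.exp (-(η * k)) * ‖randProd k (shift^[m] x) * randProd m x‖) := h3
        rw [← randProd_add] at htr
        refine hev (pinched_of_trace hd hQ (Real.exp_pos _)
          (Real.exp_le_one_iff.2 (by nlinarith)) (not_le.1 fun h => htr ⟨not_not.1 h1, h⟩).le ?_)
        rw [← Real.exp_nat_mul, ← hdd]
        refine (mul_le_mul_of_nonneg_left hσQ (by linarith)).trans ?_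
        rw [← mul_assoc]
        refine mul_le_mul_of_nonneg_right ?_ (norm_nonneg _)
        have hk' : 100 * d + 2 ≤ Real.exp (η / 2 * k) := hk
        refine (mul_le_mul_of_nonneg_right (show 100 * d ≤ Real.exp (η / 2 * k) by linarith)
          (Real.exp_pos _).le).trans ?_
        rw [← Real.exp_add]
        refine Real.exp_le_exp.2 ?_
        push_cast
        nlinarith
    _ ≤ π {x | randProd m x ∉ G} + π {x | randProd (m + k) x ∉ G} +
          π ((fun x => (randProd m x, shift^[m] x)) ⁻¹' T) :=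
        (measure_union_le _ _).trans (add_le_add_left (measure_union_le _ _) _)
    _ ≤ (p₁ j k + p₁ j k) + p₂ j k := by
        refine add_le_add (add_le_add (hgap' _ (Nat.le_add_right _ _))
          (hgap' _ (Nat.le_add_left _ _))) ?_
        rw [← Measure.map_apply ((measurable_randProd m).prodMk (measurable_shift.iterate m)) hT,
          map_block μ m, Measure.prod_apply hT]
        refine (lintegral_mono hslice).trans ?_
        have : IsProbabilityMeasure (π.map (randProd m)) :=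
          Measure.isProbabilityMeasure_map (measurable_randProd m).aemeasurable
        rw [lintegral_const, measure_univ, mul_one]

/-- **The trace is comparable to the norm.** -/
theorem decays_pinched (hd : 2 ≤ finrank ℝ E) (hμ : ∀ᵐ A ∂μ, A ∈ unitDet E)
    (hsi : StronglyIrreducible μ.support) (hprox : Proximal μ.support) (hε : 0 < ε)
    (hexp : ExpMoment μ ε) (hη : 0 < η) :
    Decays fun (j : ℕ) k => (Measure.infinitePi fun _ : ℕ => μ)
      {x | ¬ Pinched (randProd (k + j + k) x) (Real.exp (-(η * k)) / 4)} := by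
  obtain ⟨γ, l, hlγ, -, hγ, hl⟩ :=
    exists_simple_exponent μ hd hμ hsi hprox (integrable_log_norm hμ hε hexp)
  have h4 := min_le_right η ((γ - l) / 4)
  refine (decays_pinched_block hd hμ hsi hprox hε hexp hγ hl
    (lt_min hη (by linarith : (0 : ℝ) < (γ - l) / 4)) (by linarith)).mono fun j k => ?_
  refine measure_mono fun x hx h => hx (h.mono (div_le_div_of_nonneg_right (Real.exp_le_exp.2 ?_)
    (by norm_num)))
  exact neg_le_neg (mul_le_mul_of_nonneg_right (min_le_left _ _) (Nat.cast_nonneg k))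

/-- The same for all products at once. -/
theorem decays_pinched_all (hd : 2 ≤ finrank ℝ E) (hμ : ∀ᵐ A ∂μ, A ∈ unitDet E)
    (hsi : StronglyIrreducible μ.support) (hprox : Proximal μ.support) (hε : 0 < ε)
    (hexp : ExpMoment μ ε) (hη : 0 < η) :
    Decays fun (_ : Unit) n => (Measure.infinitePi fun _ : ℕ => μ)
      {x | ¬ Pinched (randProd n x) (Real.exp (-(η * n)) / 4)} := by
  obtain ⟨C, r, hC, hr, hr1, hb⟩ := decays_pinched hd hμ hsi hprox hε hexp hη
  set s := Real.sqrt r with hs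
  have hs0 : 0 < s := Real.sqrt_pos.2 hr
  have hs1 : s < 1 := (Real.sqrt_lt' one_pos).2 (by rwa [one_pow])
  refine ⟨C / s, s, by positivity, hs0, hs1, fun _ n => ?_⟩
  refine (measure_mono (t := {x | ¬ Pinched (randProd (n / 2 + n % 2 + n / 2) x)
    (Real.exp (-(η * (n / 2 : ℕ))) / 4)}) fun x
    (hx : ¬ Pinched (randProd n x) (Real.exp (-(η * n)) / 4)) h => hx ?_).trans
      ((hb (n % 2) (n / 2)).trans (ENNReal.ofReal_le_ofReal ?_))
  · rw [show n / 2 + n % 2 + n / 2 = n by omega] at h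
    refine h.mono (div_le_div_of_nonneg_right (Real.exp_le_exp.2 ?_) (by norm_num))
    exact neg_le_neg (mul_le_mul_of_nonneg_left (Nat.cast_le.2 (Nat.div_le_self n 2)) hη.le)
  · rw [← Real.sq_sqrt hr.le, ← hs, ← pow_mul, div_mul_eq_mul_div, le_div_iff₀ hs0, mul_assoc,
      ← pow_succ]
    exact mul_le_mul_of_nonneg_left (pow_le_pow_of_le_one hs0.le hs1.le (by omega)) hC

/-- Almost surely the traces and the radii grow with the norms. -/
theorem ae_growth (hd : 2 ≤ finrank ℝ E) (hμ : ∀ᵐ A ∂μ, A ∈ unitDet E)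
    (hsi : StronglyIrreducible μ.support) (hprox : Proximal μ.support) (hε : 0 < ε)
    (hexp : ExpMoment μ ε)
    (hγ : ∀ᵐ x ∂(Measure.infinitePi fun _ : ℕ => μ),
      Tendsto (fun n : ℕ => Real.log ‖randProd n x‖ / n) atTop (𝓝 γ)) :
    ∀ᵐ x ∂(Measure.infinitePi fun _ : ℕ => μ),
      (∀ η > 0, ∀ᶠ n in atTop, Pinched (randProd n x) (Real.exp (-(η * n)) / 4)) ∧
        (∀ᶠ n in atTop, LinearMap.trace ℝ E (randProd n x : E →ₗ[ℝ] E) ≠ 0) ∧
        Tendsto (fun n : ℕ => Real.log |LinearMap.trace ℝ E (randProd n x : E →ₗ[ℝ] E)| / n)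
          atTop (𝓝 γ) ∧
        Tendsto (fun n : ℕ => Real.log (radius (randProd n x)) / n) atTop (𝓝 γ) := by
  set π := Measure.infinitePi fun _ : ℕ => μ
  have hsmall : ∀ i : ℕ, ∀ᵐ x ∂π, ∀ᶠ n : ℕ in atTop,
      Pinched (randProd n x) (Real.exp (-(1 / ((i : ℝ) + 1) * n)) / 4) := by
    intro i
    obtain ⟨C, r, hC, hr, hr1, hb⟩ :=
      decays_pinched_all hd hμ hsi hprox hε hexp (η := 1 / ((i : ℝ) + 1)) (by positivity)
    have h : ∀ᵐ x ∂π, ∀ᶠ n : ℕ in atTop,
        x ∉ {x | ¬ Pinched (randProd n x) (Real.exp (-(1 / ((i : ℝ) + 1) * n)) / 4)} := by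
      refine ae_eventually_notMem (ne_top_of_le_ne_top ?_ (ENNReal.tsum_le_tsum fun n => hb () n))
      rw [← ENNReal.ofReal_tsum_of_nonneg (fun n => by positivity)
        ((summable_geometric_of_lt_one hr.le hr1).mul_left C)]
      exact ENNReal.ofReal_ne_top
    exact h.mono fun x hx => hx.mono fun n hn => not_not.1 hn
  filter_upwards [ae_all_iff.2 hsmall, hγ, ae_all_unitDet μ hμ] with x hx hlim hu
  have hall : ∀ η > 0, ∀ᶠ n in atTop, Pinched (randProd n x) (Real.exp (-(η * n)) / 4) := by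
    intro η hη
    obtain ⟨i, hi⟩ := exists_nat_one_div_lt hη
    exact (hx i).mono fun n hn => hn.mono (div_le_div_of_nonneg_right (Real.exp_le_exp.2
      (neg_le_neg (mul_le_mul_of_nonneg_right hi.le (Nat.cast_nonneg n)))) (by norm_num))
  have hpos : ∀ n, 0 < ‖randProd n x‖ := fun n =>
    one_pos.trans_le (one_le_norm (randProd_mem_unitDet hu n))
  set K := Real.log 4 + Real.log (finrank ℝ E)
  have hK : 0 ≤ K := add_nonneg (Real.log_nonneg (by norm_num)) (Real.log_natCast_nonneg _)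
  have key : ∀ g : ℕ → ℝ, (∀ η > 0, ∀ᶠ n : ℕ in atTop,
      |g n - Real.log ‖randProd n x‖| ≤ η * n + K) →
      Tendsto (fun n => g n / n) atTop (𝓝 γ) := by
    intro g hg
    have h0 : Tendsto (fun n => (g n - Real.log ‖randProd n x‖) / n) atTop (𝓝 0) := by
      rw [Metric.tendsto_nhds]
      intro δ hδ
      filter_upwards [hg (δ / 2) (half_pos hδ), eventually_gt_atTop 0,
        tendsto_natCast_atTop_atTop.eventually_gt_atTop (2 * K / δ)] with n hn hn0 hnK
      have hn' : (0 : ℝ) < n := Nat.cast_pos.2 hn0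
      rw [div_lt_iff₀ hδ] at hnK
      rw [Real.dist_eq, sub_zero, abs_div, Nat.abs_cast, div_lt_iff₀ hn']
      linarith
    have := h0.add hlim
    rw [zero_add] at this
    exact this.congr fun n => by rw [← add_div, sub_add_cancel]
  have hθ : ∀ t : ℝ, 0 ≤ t → |Real.log (Real.exp (-t) / 4)| ≤ t + Real.log 4 := by
    intro t ht
    have := Real.log_nonneg (show (1 : ℝ) ≤ 4 by norm_num)
    rw [Real.log_div (Real.exp_pos _).ne' (by norm_num), Real.log_exp, abs_le]
    constructor <;> linarith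
  refine ⟨hall, ?_, key _ fun η hη => ?_, key _ fun η hη => ?_⟩
  · exact (hall 1 one_pos).mono fun n hn => (hn.abs_log_sub_le (hpos n) (by positivity)).1
  · refine (hall η hη).mono fun n hn => ((hn.abs_log_sub_le (hpos n) (by positivity)).2.1).trans ?_
    linarith [hθ (η * n) (by positivity)]
  · refine (hall η hη).mono fun n hn => ((hn.abs_log_sub_le (hpos n) (by positivity)).2.2).trans ?_
    linarith [hθ (η * n) (by positivity)]

end FA.TopEigenvalue
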